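import Mathlib

/-!
# Basic lemmas for the multi-component injectivity theorem (BAD, block L5-direct)

* calculus of `ValuationSubring.nonunits`;
* uniqueness of approximate roots in a local ring (ideal form).
-/

namespace Fermat.Agent.BAD.Inj

open IsLocalRing

section Nonunits

variable {F : Type*} [Field F]

theorem mul_mem_nonunits (V : ValuationSubring F) {a z : F} (ha : a ∈ V) (hz : z ∈ V.nonunits) :
    a * z ∈ V.nonunits := by
  obtain ⟨hzV, hz'⟩ := V.mem_nonunits_iff_exists_mem_maximalIdeal.1 hz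
  exact V.mem_nonunits_iff_exists_mem_maximalIdeal.2
    ⟨V.mul_mem _ _ ha hzV, (maximalIdeal V).mul_mem_left ⟨a, ha⟩ hz'⟩

theorem mul_mem_nonunits' (V : ValuationSubring F) {a z : F} (hz : z ∈ V.nonunits) (ha : a ∈ V) :
    z * a ∈ V.nonunits := by
  rw [mul_comm]; exact mul_mem_nonunits V ha hz

theorem mem_of_mem_nonunits (V : ValuationSubring F) {z : F} (hz : z ∈ V.nonunits) : z ∈ V :=
  V.nonunits_subset hz

theorem pow_mem_nonunits (V : ValuationSubring F) {z : F} (hz : z ∈ V.nonunits) {n : ℕ}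
    (hn : n ≠ 0) : z ^ n ∈ V.nonunits := by
  obtain ⟨k, rfl⟩ : ∃ k, n = k + 1 := ⟨n - 1, by omega⟩
  rw [pow_succ]
  exact mul_mem_nonunits V (V.pow_mem (mem_of_mem_nonunits V hz) _) hz

/-- `x ≡ y` implies `x ^ n ≡ y ^ n`. -/
theorem pow_sub_pow_mem_nonunits (V : ValuationSubring F) {x y : F} (hx : x ∈ V) (hy : y ∈ V)
    (h : x - y ∈ V.nonunits) (n : ℕ) : x ^ n - y ^ n ∈ V.nonunits := by
  rw [← (Commute.all x y).geom_sum₂_mul n]
  refine mul_mem_nonunits V (V.toSubring.sum_mem fun i _ => ?_) h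
  exact V.mul_mem _ _ (V.pow_mem hx _) (V.pow_mem hy _)

theorem mem_of_valuation_eq_one (V : ValuationSubring F) {x : F} (h : V.valuation x = 1) :
    x ∈ V := (V.valuation_le_one_iff x).1 h.le

theorem inv_mem_of_valuation_eq_one (V : ValuationSubring F) {x : F} (h : V.valuation x = 1) :
    x⁻¹ ∈ V := (V.valuation_le_one_iff _).1 (by rw [map_inv₀, h, inv_one])

theorem ne_zero_of_valuation_eq_one (V : ValuationSubring F) {x : F} (h : V.valuation x = 1) :
    x ≠ 0 := by
  rintro rfl; rw [map_zero] at h; exact zero_ne_one h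

/-- an element congruent to a unit is a unit. -/
theorem valuation_eq_one_of_sub_mem (V : ValuationSubring F) {x y : F} (hy : V.valuation y = 1)
    (h : x - y ∈ V.nonunits) : V.valuation x = 1 := by
  rw [← hy]
  apply Valuation.map_eq_of_sub_lt
  rw [hy]; exact V.mem_nonunits_iff.1 h

theorem valuation_eq_one_of_mem_of_inv_mem (V : ValuationSubring F) {x : F} (hx0 : x ≠ 0)
    (hx : x ∈ V) (hx' : x⁻¹ ∈ V) : V.valuation x = 1 := by
  apply le_antisymm ((V.valuation_le_one_iff x).2 hx)
  have := (V.valuation_le_one_iff _).2 hx'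
  rw [map_inv₀] at this
  have h0 : V.valuation x ≠ 0 := (Valuation.ne_zero_iff _).2 hx0
  exact (inv_le_one₀ (zero_lt_iff.2 h0)).1 this

end Nonunits

section Local

variable {R : Type*} [CommRing R] [IsLocalRing R]

/-- **Uniqueness of approximate roots**, ideal form: in a local ring in which `m` is invertible,
if `a` is a unit, `a ≡ b` modulo the maximal ideal and `a ^ m ≡ b ^ m` modulo `𝔞`, then
`a ≡ b` modulo `𝔞`. -/
theorem sub_mem_of_pow_sub_pow_mem (m : ℕ) (hm : IsUnit (m : R)) {a b : R} (ha : IsUnit a)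
    (hab : a - b ∈ maximalIdeal R) (𝔞 : Ideal R) (h : a ^ m - b ^ m ∈ 𝔞) : a - b ∈ 𝔞 := by
  set S : R := ∑ i ∈ Finset.range m, a ^ i * b ^ (m - 1 - i) with hS
  have hfac : S * (a - b) = a ^ m - b ^ m := (Commute.all a b).geom_sum₂_mul m
  have hres : residue R a = residue R b := by
    rw [← sub_eq_zero, ← map_sub]; exact (residue_eq_zero_iff _).2 hab
  have hSres : residue R S = residue R ((m : R) * a ^ (m - 1)) := by
    rw [hS, map_sum, map_mul, map_pow, map_natCast]
    have : ∀ i ∈ Finset.range m, residue R (a ^ i * b ^ (m - 1 - i)) = residue R a ^ (m - 1) := by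
      intro i hi
      have hi' : i < m := Finset.mem_range.1 hi
      rw [map_mul, map_pow, map_pow, ← hres, ← pow_add]
      congr 1; omega
    rw [Finset.sum_congr rfl this, Finset.sum_const, Finset.card_range, nsmul_eq_mul]
  have hSu : IsUnit S := by
    have hu : IsUnit ((m : R) * a ^ (m - 1)) := hm.mul (ha.pow _)
    by_contra hcon
    have h0 : residue R S = 0 := (residue_eq_zero_iff _).2 ((mem_maximalIdeal _).2 hcon)
    rw [hSres] at h0
    exact ((mem_maximalIdeal _).1 ((residue_eq_zero_iff _).1 h0)) hu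
  rw [← hfac] at h
  exact (Ideal.unit_mul_mem_iff_mem 𝔞 hSu).1 h

end Local

end Fermat.Agent.BAD.Inj
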