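import Mathlib
import Fermat.Agent.BAD.Inj.Basic

/-!
# Weak approximation inside a chart (BAD)

`v i` finitely many valuation subrings of `F`, all containing a subring `B`, each of them a
localisation of `B`, with pairwise incomparable centres on `B`.
-/

namespace Fermat.Agent.BAD.Inj

variable {F : Type*} [Field F] {ι : Type*}

/-- the hypotheses: `B ⊆ v i`, `v i` is a localisation of `B`, the centres are incomparable. -/
structure ApproxHyp (v : ι → ValuationSubring F) (B : Subring F) : Prop where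
  le : ∀ b ∈ B, ∀ i, b ∈ v i
  loc : ∀ i, ∀ x ∈ v i, ∃ a ∈ B, ∃ s ∈ B, s ∉ (v i).nonunits ∧ x * s = a
  inc : ∀ i j, i ≠ j → ∃ e ∈ B, e ∈ (v j).nonunits ∧ e ∉ (v i).nonunits

theorem valuation_eq_one_of_not_mem (V : ValuationSubring F) {x : F} (hx : x ∈ V)
    (h : x ∉ V.nonunits) : V.valuation x = 1 := by
  rw [V.mem_nonunits_iff, not_lt] at h
  exact le_antisymm ((V.valuation_le_one_iff x).2 hx) h

theorem sum_mem_nonunits (V : ValuationSubring F) {κ : Type*} (s : Finset κ) (f : κ → F)
    (h : ∀ k ∈ s, f k ∈ V.nonunits) : ∑ k ∈ s, f k ∈ V.nonunits :=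
  V.nonunits.sum_mem h

variable [Finite ι] {v : ι → ValuationSubring F} {B : Subring F}

/-- elements of `B` which are units at `v i` and non-units at the other `v j`. -/
theorem ApproxHyp.exists_sep (H : ApproxHyp v B) :
    ∃ e : ι → F, (∀ i, e i ∈ B) ∧ (∀ i, (v i).valuation (e i) = 1) ∧
      ∀ i j, i ≠ j → e i ∈ (v j).nonunits := by
  classical
  have := Fintype.ofFinite ι
  have hex : ∀ i j, ∃ e ∈ B, (v i).valuation e = 1 ∧ (i ≠ j → e ∈ (v j).nonunits) := by
    intro i j
    by_cases hij : i = j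
    · exact ⟨1, B.one_mem, map_one _, fun h => (h hij).elim⟩
    · obtain ⟨e, heB, h1, h2⟩ := H.inc i j hij
      exact ⟨e, heB, valuation_eq_one_of_not_mem _ (H.le _ heB i) h2, fun _ => h1⟩
  choose e heB he1 he2 using hex
  refine ⟨fun i => ∏ j, e i j, fun i => B.prod_mem fun j _ => heB i j, fun i => ?_,
    fun i j hij => ?_⟩
  · show (v i).valuation (∏ j, e i j) = 1
    rw [map_prod]
    exact Finset.prod_eq_one fun j _ => he1 i j
  · show ∏ k, e i k ∈ (v j).nonunits
    rw [← Finset.mul_prod_erase _ _ (Finset.mem_univ j)]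
    exact mul_mem_nonunits' _ (he2 i j hij)
      (H.le _ (B.prod_mem fun k _ => heB i k) j)

/-- **Weak approximation (A1).** -/
theorem ApproxHyp.approx (H : ApproxHyp v B) (x : ι → F) (hx : ∀ i, x i ∈ v i) :
    ∃ y : F, ∀ i, y - x i ∈ (v i).nonunits := by
  classical
  have := Fintype.ofFinite ι
  obtain ⟨e, heB, he1, he2⟩ := H.exists_sep
  have hloc : ∀ j, ∃ a ∈ B, ∃ s ∈ B, (v j).valuation s = 1 ∧ x j * s = a := by
    intro j
    obtain ⟨a, ha, s, hs, h1, h2⟩ := H.loc j (x j) (hx j)
    exact ⟨a, ha, s, hs, valuation_eq_one_of_not_mem _ (H.le _ hs j) h1, h2⟩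
  choose a haB s hsB hs1 has using hloc
  -- the denominators
  set r : ι → F := fun j => ∑ l ∈ Finset.univ.erase j, e l with hr
  set d : ι → F := fun j => s j * e j + r j with hd
  have hrj : ∀ j, r j ∈ (v j).nonunits := fun j =>
    sum_mem_nonunits _ _ _ fun l hl => he2 l j (Finset.ne_of_mem_erase hl)
  have hdj : ∀ j, (v j).valuation (d j) = 1 := by
    intro j
    apply valuation_eq_one_of_sub_mem (v j) (y := s j * e j)
    · rw [map_mul, hs1, he1, one_mul]
    · have : d j - s j * e j = r j := by simp [hd]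
      rw [this]; exact hrj j
  have hdl : ∀ j l, l ≠ j → (v l).valuation (d j) = 1 := by
    intro j l hlj
    apply valuation_eq_one_of_sub_mem (v l) (he1 l)
    have hmem : l ∈ Finset.univ.erase j := Finset.mem_erase.2 ⟨hlj, Finset.mem_univ l⟩
    have : d j - e l = s j * e j + ∑ l' ∈ (Finset.univ.erase j).erase l, e l' := by
      simp only [hd, hr]
      rw [← Finset.add_sum_erase _ _ hmem]; ring
    rw [this]
    refine (v l).nonunits.add_mem (mul_mem_nonunits _ (H.le _ (hsB j) l) (he2 j l hlj.symm)) ?_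
    exact sum_mem_nonunits _ _ _ fun l' hl' => he2 l' l (Finset.ne_of_mem_erase hl')
  set y : ι → F := fun j => a j * e j / d j with hy
  have hyj : ∀ j, y j - x j ∈ (v j).nonunits := by
    intro j
    have hd0 := ne_zero_of_valuation_eq_one _ (hdj j)
    have hs0 := ne_zero_of_valuation_eq_one _ (hs1 j)
    have : y j - x j = (-(x j) * (d j)⁻¹) * r j := by
      simp only [hy, ← has j]
      have hdd : d j = s j * e j + r j := rfl
      field_simp
      rw [hdd]; ring
    rw [this]
    exact mul_mem_nonunits _ ((v j).mul_mem _ _ ((v j).neg_mem _ (hx j))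
      (inv_mem_of_valuation_eq_one _ (hdj j))) (hrj j)
  have hyl : ∀ j l, l ≠ j → y j ∈ (v l).nonunits := by
    intro j l hlj
    have : y j = (a j * (d j)⁻¹) * e j := by simp only [hy]; ring
    rw [this]
    exact mul_mem_nonunits _ ((v l).mul_mem _ _ (H.le _ (haB j) l)
      (inv_mem_of_valuation_eq_one _ (hdl j l hlj))) (he2 j l hlj.symm)
  refine ⟨∑ j, y j, fun i => ?_⟩
  have : ∑ j, y j - x i = (y i - x i) + ∑ j ∈ Finset.univ.erase i, y j := by
    rw [← Finset.add_sum_erase _ _ (Finset.mem_univ i)]; ring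
  rw [this]
  exact (v i).nonunits.add_mem (hyj i)
    (sum_mem_nonunits _ _ _ fun j hj => hyl j i (Finset.ne_of_mem_erase hj).symm)

/-- **(A2)** an element with the valuation of a uniformiser at `v i`, congruent to `1` at the other
`v j`. -/
theorem ApproxHyp.exists_unif (H : ApproxHyp v B) (i : ι) (ϖ : F) (hϖ0 : ϖ ≠ 0)
    (hϖ : ϖ ∈ (v i).nonunits) (hmax : ∀ z ∈ (v i).nonunits, z / ϖ ∈ v i) :
    ∃ τ : F, (v i).valuation (τ / ϖ) = 1 ∧ ∀ j, j ≠ i → τ - 1 ∈ (v j).nonunits := by
  classical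
  -- `c ≡ 1` at `v i`, `≡ 0` elsewhere;  `c' ≡ 0` at `v i`, `≡ 1` elsewhere
  obtain ⟨c, hc⟩ := H.approx (fun j => if j = i then 1 else 0)
    (fun j => by by_cases h : j = i <;> simp [h])
  obtain ⟨c', hc'⟩ := H.approx (fun j => if j = i then 0 else 1)
    (fun j => by by_cases h : j = i <;> simp [h])
  obtain ⟨a, haB, s, hsB, hs, e⟩ := H.loc i ϖ (mem_of_mem_nonunits _ hϖ)
  have hs1 : (v i).valuation s = 1 := valuation_eq_one_of_not_mem _ (H.le _ hsB i) hs
  have hci : c - 1 ∈ (v i).nonunits := by simpa using hc i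
  have hc'i : c' ∈ (v i).nonunits := by simpa using hc' i
  have hcv : (v i).valuation c = 1 := valuation_eq_one_of_sub_mem _ (map_one _) hci
  refine ⟨a * c + c' ^ 2, ?_, fun j hj => ?_⟩
  · have h1 : (a * c + c' ^ 2) / ϖ = s * c + c' * (c' / ϖ) := by
      rw [← e]; field_simp
    rw [h1]
    apply valuation_eq_one_of_sub_mem (v i) (y := s * c)
    · rw [map_mul, hs1, hcv, one_mul]
    · have : s * c + c' * (c' / ϖ) - s * c = c' * (c' / ϖ) := by ring
      rw [this]
      exact mul_mem_nonunits' _ hc'i (hmax _ hc'i)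
  · have hcj : c ∈ (v j).nonunits := by simpa [hj] using hc j
    have hc'j : c' - 1 ∈ (v j).nonunits := by simpa [hj] using hc' j
    have hc'V : c' ∈ v j :=
      mem_of_valuation_eq_one _ (valuation_eq_one_of_sub_mem _ (map_one _) hc'j)
    have : a * c + c' ^ 2 - 1 = a * c + (c' + 1) * (c' - 1) := by ring
    rw [this]
    exact (v j).nonunits.add_mem (mul_mem_nonunits _ (H.le _ haB j) hcj)
      (mul_mem_nonunits _ ((v j).add_mem _ _ hc'V (v j).one_mem) hc'j)

end Fermat.Agent.BAD.Inj
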