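import Mathlib
import Fermat.Agent.S18.Abs.InjAbs
import Fermat.Agent.BAD.Inj.Basic

/-!
# INJ'' : injectivity of reduction for several vertical valuations (BAD, block L5-direct)

`F` a field, `v : ι → ValuationSubring F` the "vertical" valuation subrings, `π ∈ F` a non-unit of
all of them, with `z ^ E / π ∈ v i` for every non-unit `z` of `v i`.  Charts `B1, B2 ≤ B12`.
`u ∈ F`, and `lam i` units of `v i` with `lam i ^ m * u ≡ 1`.  If locally at every closed point of
the special fibres of `B1`, `B2` the module `I = {y | y ^ m * u ∈ B}` has an element which is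
congruent to `lam i * b`, `b` a local unit, at all vertical valuations simultaneously, then
`s ^ m * u ∈ B1 ∩ B2` for some `s ≠ 0`.
-/

namespace Fermat.Agent.BAD.Inj

open Fermat.Agent.S18.Abs IsLocalRing

variable {F : Type*} [Field F] {ι : Type*}

/-- hypotheses on the vertical valuation subrings and on `π`. -/
structure VertHyp (v : ι → ValuationSubring F) (π : F) (E : ℕ) : Prop where
  ne_zero : π ≠ 0
  nonunit : ∀ i, π ∈ (v i).nonunits
  bound : ∀ i, ∀ z ∈ (v i).nonunits, z ^ E / π ∈ v i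

/-- hypotheses on a chart. -/
structure Chart (v : ι → ValuationSubring F) (π : F) (m : ℕ) (B : Subring F) : Prop where
  le : ∀ b ∈ B, ∀ i, b ∈ v i
  pi_mem : π ∈ B
  qep : ∀ z : F, (∀ i, z ∈ v i) → π * z ∈ B → z ∈ B
  root : ∀ y : F, y ^ m ∈ B → y ∈ B
  minv : (m : F)⁻¹ ∈ B

/-- local triviality (with respect to the residual roots `lam i`) of the module
`{y | y ^ m * u ∈ B}` at all maximal ideals containing `p`. -/
def LocTriv (v : ι → ValuationSubring F) (lam : ι → F) (m : ℕ) (u : F) (B : Subring F) (p : B) :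
    Prop :=
  ∀ 𝔫 : Ideal B, 𝔫.IsMaximal → p ∈ 𝔫 →
    ∃ c : F, c ^ m * u ∈ B ∧ ∃ b : B, b ∉ 𝔫 ∧ ∀ i, c - lam i * b ∈ (v i).nonunits

/-- the residual data: `lam i` is a unit of `v i` and `lam i ^ m * u ≡ 1`. -/
structure ResRoot (v : ι → ValuationSubring F) (lam : ι → F) (m : ℕ) (u : F) : Prop where
  unit : ∀ i, (v i).valuation (lam i) = 1
  congr : ∀ i, lam i ^ m * u - 1 ∈ (v i).nonunits

theorem ResRoot.valuation_u {v : ι → ValuationSubring F} {lam : ι → F} {m : ℕ} {u : F}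
    (H : ResRoot v lam m u) (i : ι) : (v i).valuation u = 1 := by
  have h1 : (v i).valuation (lam i ^ m * u) = 1 :=
    valuation_eq_one_of_sub_mem (v i) (map_one _) (H.congr i)
  rwa [map_mul, map_pow, H.unit i, one_pow, one_mul] at h1

theorem Chart.qep_pow {v : ι → ValuationSubring F} {π : F} {m : ℕ} {B : Subring F}
    (hB : Chart v π m B) : ∀ (k : ℕ) (z : F), (∀ i, z ∈ v i) → π ^ k * z ∈ B → z ∈ B
  | 0, z, _, h => by simpa using h
  | k + 1, z, hz, h => by
      apply hB.qep_pow k z hz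
      apply hB.qep _ (fun i => (v i).mul_mem _ _ ((v i).pow_mem (hB.le _ hB.pi_mem i) k) (hz i))
      have : π * (π ^ k * z) = π ^ (k + 1) * z := by ring
      rw [this]; exact h

/-- elements of `I` are integral at all vertical valuations. -/
theorem mem_of_pow_mul_mem {v : ι → ValuationSubring F} {π : F} {m : ℕ} {B : Subring F}
    (hB : Chart v π m B) (hm : 0 < m) {lam : ι → F} {u : F} (H : ResRoot v lam m u) {y : F}
    (hy : y ^ m * u ∈ B) (i : ι) : y ∈ v i := by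
  apply ValuationSubring_mem_of_pow_mem (v i) hm
  have hu0 := ne_zero_of_valuation_eq_one _ (H.valuation_u i)
  have : y ^ m = (y ^ m * u) * u⁻¹ := by field_simp
  rw [this]
  exact (v i).mul_mem _ _ (hB.le _ hy i) (inv_mem_of_valuation_eq_one _ (H.valuation_u i))

/-- if `a ≡ lam i` then `a ^ m * u ≡ 1`. -/
theorem pow_mul_sub_one_mem {v : ι → ValuationSubring F} {m : ℕ} {lam : ι → F} {u : F}
    (H : ResRoot v lam m u) {a : F} (i : ι) (ha : a - lam i ∈ (v i).nonunits) :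
    a ^ m * u - 1 ∈ (v i).nonunits := by
  have hl : lam i ∈ v i := mem_of_valuation_eq_one _ (H.unit i)
  have haV : a ∈ v i := mem_of_valuation_eq_one _ (valuation_eq_one_of_sub_mem _ (H.unit i) ha)
  have : a ^ m * u - 1 = (a ^ m - lam i ^ m) * u + (lam i ^ m * u - 1) := by ring
  rw [this]
  exact (v i).nonunits.add_mem
    (mul_mem_nonunits' _ (pow_sub_pow_mem_nonunits _ haV hl ha m)
      (mem_of_valuation_eq_one _ (H.valuation_u i))) (H.congr i)

/-- **Step (b)**: a global section congruent to `lam`. -/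
theorem exists_section {v : ι → ValuationSubring F} {π : F} {E : ℕ} (hv : VertHyp v π E) {m : ℕ}
    (hm : 0 < m) {B : Subring F} (hB : Chart v π m B) {lam : ι → F} {u : F}
    (H : ResRoot v lam m u) (hL : LocTriv v lam m u B ⟨π, hB.pi_mem⟩) :
    ∃ a : F, a ^ m * u ∈ B ∧ ∀ i, a - lam i ∈ (v i).nonunits := by
  classical
  set I := rootGroup B m hm hB.root u with hI
  let T : Ideal B :=
    { carrier := {b | ∃ c ∈ I, ∀ i, c - lam i * (b : F) ∈ (v i).nonunits}
      zero_mem' := ⟨0, I.zero_mem, fun i => by simp⟩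
      add_mem' := by
        rintro a b ⟨c, hc, h1⟩ ⟨c', hc', h2⟩
        refine ⟨c + c', I.add_mem hc hc', fun i => ?_⟩
        have : c + c' - lam i * ((a + b : B) : F) = (c - lam i * a) + (c' - lam i * b) := by
          push_cast; ring
        rw [this]; exact (v i).nonunits.add_mem (h1 i) (h2 i)
      smul_mem' := by
        rintro r b ⟨c, hc, h1⟩
        refine ⟨r * c, mul_mem_rootGroup r.2 hc, fun i => ?_⟩
        have : (r : F) * c - lam i * ((r • b : B) : F) = r * (c - lam i * b) := by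
          simp only [smul_eq_mul, Subring.coe_mul]; ring
        rw [this]; exact mul_mem_nonunits _ (hB.le _ r.2 i) (h1 i) }
  have hTtop : T = ⊤ := by
    by_contra hne
    obtain ⟨𝔫, h𝔫max, hT𝔫⟩ := Ideal.exists_le_maximal T hne
    have hπT : (⟨π, hB.pi_mem⟩ : B) ∈ T := by
      refine ⟨0, I.zero_mem, fun i => ?_⟩
      rw [zero_sub]
      exact (v i).nonunits.neg_mem
        (mul_mem_nonunits _ (mem_of_valuation_eq_one _ (H.unit i)) (hv.nonunit i))
    obtain ⟨c, hc, b, hb, hcb⟩ := hL 𝔫 h𝔫max (hT𝔫 hπT)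
    exact hb (hT𝔫 ⟨c, hc, hcb⟩)
  have h1 : (1 : B) ∈ T := hTtop ▸ Submodule.mem_top
  obtain ⟨c, hc, hc1⟩ := h1
  exact ⟨c, hc, fun i => by simpa using hc1 i⟩

/-- **Step (c)**: Newton iteration `a ↦ a (1 - ε / m)`. -/
theorem newton_multi {v : ι → ValuationSubring F} {π : F} {E : ℕ} (hv : VertHyp v π E) {m : ℕ}
    (hm : 0 < m) (hmF : (m : F) ≠ 0) {B : Subring F} (hB : Chart v π m B) {lam : ι → F} {u : F}
    (H : ResRoot v lam m u) (hL : LocTriv v lam m u B ⟨π, hB.pi_mem⟩) (k : ℕ) :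
    ∃ a : F, a ^ m * u ∈ B ∧ (∀ i, a - lam i ∈ (v i).nonunits) ∧
      ∀ i, (a ^ m * u - 1) / π ^ k ∈ v i := by
  obtain ⟨a0, ha0, ha0l⟩ := exists_section hv hm hB H hL
  set ε0 : F := a0 ^ m * u - 1 with hε0
  have hε0B : ε0 ∈ B := B.sub_mem ha0 B.one_mem
  have hε0n : ∀ i, ε0 ∈ (v i).nonunits := fun i => pow_mul_sub_one_mem H i (ha0l i)
  have key : ∀ j : ℕ, ∃ a : F, a ^ m * u ∈ B ∧ (∀ i, a - lam i ∈ (v i).nonunits) ∧
      ∃ r ∈ B, a ^ m * u - 1 = ε0 ^ (j + 1) * r := by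
    intro j
    induction j with
    | zero => exact ⟨a0, ha0, ha0l, 1, B.one_mem, by simp [hε0]⟩
    | succ j ih =>
      obtain ⟨a, haB, hal, r, hr, e⟩ := ih
      set ε : F := ε0 ^ (j + 1) * r with hε
      have hεB : ε ∈ B := B.mul_mem (B.pow_mem hε0B _) hr
      -- expansion inside the ring `B`
      obtain ⟨r', hr'⟩ := add_pow_expand (1 : B) (-(⟨ε, hεB⟩ * ⟨_, hB.minv⟩)) m
      have hr'F : (1 + -(ε * (m : F)⁻¹)) ^ m
          = 1 + (m : F) * 1 ^ (m - 1) * (-(ε * (m : F)⁻¹)) + r' * (-(ε * (m : F)⁻¹)) ^ 2 := by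
        have := congrArg (Subtype.val) hr'
        simpa using this
      have hexp : (1 + -(ε * (m : F)⁻¹)) ^ m = 1 - ε + r' * (m : F)⁻¹ ^ 2 * ε ^ 2 := by
        rw [hr'F, one_pow]
        field_simp
        ring
      have hfB : 1 + -(ε * (m : F)⁻¹) ∈ B :=
        B.add_mem B.one_mem (B.neg_mem (B.mul_mem hεB hB.minv))
      refine ⟨a * (1 + -(ε * (m : F)⁻¹)), ?_, ?_,
        ε0 ^ j * r ^ 2 * (-1 + (1 + ε) * (r' * (m : F)⁻¹ ^ 2)), ?_, ?_⟩
      · rw [mul_pow, mul_right_comm]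
        exact B.mul_mem haB (B.pow_mem hfB _)
      · intro i
        have haV : a ∈ v i :=
          mem_of_valuation_eq_one _ (valuation_eq_one_of_sub_mem _ (H.unit i) (hal i))
        have hεn : ε ∈ (v i).nonunits :=
          mul_mem_nonunits' _ (pow_mem_nonunits _ (hε0n i) (Nat.succ_ne_zero j)) (hB.le _ hr i)
        have : a * (1 + -(ε * (m : F)⁻¹)) - lam i = (a - lam i) - (a * (m : F)⁻¹) * ε := by ring
        rw [this]
        exact (v i).nonunits.sub_mem (hal i)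
          (mul_mem_nonunits _ ((v i).mul_mem _ _ haV (hB.le _ hB.minv i)) hεn)
      · refine B.mul_mem (B.mul_mem (B.pow_mem hε0B _) (B.pow_mem hr _)) ?_
        refine B.add_mem (B.neg_mem B.one_mem) (B.mul_mem (B.add_mem B.one_mem hεB) ?_)
        exact B.mul_mem r'.2 (B.pow_mem hB.minv _)
      · have e' : a ^ m * u = 1 + ε := by linear_combination e
        have : (a * (1 + -(ε * (m : F)⁻¹))) ^ m * u = (a ^ m * u) * (1 + -(ε * (m : F)⁻¹)) ^ m := by
          rw [mul_pow]; ring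
        rw [this, e', hexp]
        have h2 : ε ^ 2 = ε0 ^ (j + 1 + 1) * (ε0 ^ j * r ^ 2) := by rw [hε]; ring
        linear_combination (-1 + (1 + ε) * (r' * (m : F)⁻¹ ^ 2)) * h2
  obtain ⟨a, haB, hal, r, hr, e⟩ := key (E * k)
  refine ⟨a, haB, hal, fun i => ?_⟩
  have hπ := hv.ne_zero
  have : (a ^ m * u - 1) / π ^ k = (ε0 ^ E / π) ^ k * (ε0 * r) := by
    rw [e, div_pow, ← pow_mul]
    field_simp
    ring
  rw [this]
  exact (v i).mul_mem _ _ ((v i).pow_mem (hv.bound i _ (hε0n i)) _)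
    ((v i).mul_mem _ _ (mem_of_mem_nonunits _ (hε0n i)) (hB.le _ hr i))

/-- **Uniqueness of approximate roots** at one valuation subring. -/
theorem approx_unique (V : ValuationSubring F) {π : F} (hπ0 : π ≠ 0) (hπV : π ∈ V) {m : ℕ}
    (hmV : V.valuation (m : F) = 1) {l u a b : F} (hl : V.valuation l = 1)
    (hu : V.valuation u = 1) (ha : a - l ∈ V.nonunits) (hb : b - l ∈ V.nonunits) {k : ℕ}
    (hak : (a ^ m * u - 1) / π ^ k ∈ V) (hbk : (b ^ m * u - 1) / π ^ k ∈ V) :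
    (a - b) / π ^ k ∈ V := by
  have hav : V.valuation a = 1 := valuation_eq_one_of_sub_mem _ hl ha
  have hbv : V.valuation b = 1 := valuation_eq_one_of_sub_mem _ hl hb
  have haV := mem_of_valuation_eq_one _ hav
  have hbV := mem_of_valuation_eq_one _ hbv
  have hu0 := ne_zero_of_valuation_eq_one _ hu
  have hπk : π ^ k ≠ 0 := pow_ne_zero _ hπ0
  have hmem := sub_mem_of_pow_sub_pow_mem (R := V) m
    (by
      have : ((m : V) : F) = (m : F) := by simp
      rw [V.valuation_eq_one_iff, this]; exact hmV)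
    (a := ⟨a, haV⟩) (b := ⟨b, hbV⟩)
    (by rw [V.valuation_eq_one_iff]; exact hav)
    (by
      rw [← V.coe_mem_nonunits_iff]
      have : (((⟨a, haV⟩ : V) - ⟨b, hbV⟩ : V) : F) = (a - l) - (b - l) := by
        simp
      rw [this]; exact V.nonunits.sub_mem ha hb)
    (Ideal.span {(⟨π, hπV⟩ : V) ^ k})
    (by
      rw [Ideal.mem_span_singleton, dvd_iff_div_mem V hπ0 hπV]
      have : ((((⟨a, haV⟩ : V) ^ m - (⟨b, hbV⟩ : V) ^ m : V)) : F) / π ^ k
          = ((a ^ m * u - 1) / π ^ k - (b ^ m * u - 1) / π ^ k) * u⁻¹ := by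
        simp only [AddSubgroupClass.coe_sub, SubmonoidClass.coe_pow]
        field_simp
        ring
      rw [this]
      exact V.mul_mem _ _ (V.sub_mem hak hbk) (inv_mem_of_valuation_eq_one _ hu))
  rw [Ideal.mem_span_singleton, dvd_iff_div_mem V hπ0 hπV] at hmem
  simpa using hmem

/-- **INJ''**, core form. -/
theorem inj_multi [Nonempty ι] {v : ι → ValuationSubring F} {π : F} {E : ℕ} (hv : VertHyp v π E)
    {m : ℕ} (hm : 0 < m) (hmF : (m : F) ≠ 0) {lam : ι → F} {u : F} (H : ResRoot v lam m u)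
    {B1 B2 B12 : Subring F} (hB1 : Chart v π m B1) (hB2 : Chart v π m B2)
    (hB12 : Chart v π m B12) (h1 : B1 ≤ B12) (h2 : B2 ≤ B12)
    (hL1 : LocTriv v lam m u B1 ⟨π, hB1.pi_mem⟩) (hL2 : LocTriv v lam m u B2 ⟨π, hB2.pi_mem⟩)
    (htors : ∃ k0 : ℕ, ∀ y ∈ rootGroup B12 m hm hB12.root u, ∀ k : ℕ,
      π ^ k * y ∈ rootGroup B1 m hm hB1.root u ⊔ rootGroup B2 m hm hB2.root u →
      π ^ k0 * y ∈ rootGroup B1 m hm hB1.root u ⊔ rootGroup B2 m hm hB2.root u) :
    ∃ s : F, s ≠ 0 ∧ s ^ m * u ∈ B1 ∧ s ^ m * u ∈ B2 ∧ ∀ i, s - lam i ∈ (v i).nonunits := by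
  have hπ := hv.ne_zero
  obtain ⟨k0, htors⟩ := htors
  obtain ⟨a, haI, hal, hak⟩ := newton_multi hv hm hmF hB1 H hL1 (k0 + 1)
  obtain ⟨b, hbI, hbl, hbk⟩ := newton_multi hv hm hmF hB2 H hL2 (k0 + 1)
  have hmv : ∀ i, (v i).valuation (m : F) = 1 := fun i =>
    valuation_eq_one_of_mem_of_inv_mem _ hmF (natCast_mem _ m) (hB1.le _ hB1.minv i)
  have hab : ∀ i, (a - b) / π ^ (k0 + 1) ∈ v i := fun i =>
    approx_unique (v i) hπ (mem_of_mem_nonunits _ (hv.nonunit i)) (hmv i) (H.unit i)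
      (H.valuation_u i) (hal i) (hbl i) (hak i) (hbk i)
  set I1 := rootGroup B1 m hm hB1.root u with hI1
  set I2 := rootGroup B2 m hm hB2.root u with hI2
  set I12 := rootGroup B12 m hm hB12.root u with hI12
  have hI1le : I1 ≤ I12 := fun y hy => h1 hy
  have hI2le : I2 ≤ I12 := fun y hy => h2 hy
  set y := (a - b) / π ^ (k0 + 1) with hy
  have hπk : π ^ (k0 + 1) ≠ 0 := pow_ne_zero _ hπ
  have hyeq : π ^ (k0 + 1) * y = a - b := by rw [hy]; field_simp
  have hy12 : y ∈ I12 := by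
    rw [hI12, mem_rootGroup]
    apply hB12.qep_pow ((k0 + 1) * m) _
      (fun i => (v i).mul_mem _ _ ((v i).pow_mem (hab i) _)
        (mem_of_valuation_eq_one _ (H.valuation_u i)))
    have : π ^ ((k0 + 1) * m) * (y ^ m * u) = (π ^ (k0 + 1) * y) ^ m * u := by
      rw [pow_mul, mul_pow, mul_assoc]
    rw [this, hyeq]
    exact I12.sub_mem (hI1le haI) (hI2le hbI)
  have hmem : π ^ (k0 + 1) * y ∈ I1 ⊔ I2 := by
    rw [hyeq, sub_eq_add_neg]
    exact AddSubgroup.add_mem_sup haI (I2.neg_mem hbI)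
  obtain ⟨y1, hy1, y2, hy2, hsum⟩ := AddSubgroup.mem_sup.1 (htors y hy12 (k0 + 1) hmem)
  have hs1 : a - π * y1 ∈ I1 := I1.sub_mem haI (mul_mem_rootGroup hB1.pi_mem hy1)
  have hs2 : a - π * y1 ∈ I2 := by
    have : a - π * y1 = b + π * y2 := by
      have e : π ^ (k0 + 1) * y = π * (π ^ k0 * y) := by ring
      rw [e, ← hsum] at hyeq
      linear_combination -hyeq
    rw [this]
    exact I2.add_mem hbI (mul_mem_rootGroup hB2.pi_mem hy2)
  have hsl : ∀ i, a - π * y1 - lam i ∈ (v i).nonunits := by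
    intro i
    have : a - π * y1 - lam i = (a - lam i) - y1 * π := by ring
    rw [this]
    exact (v i).nonunits.sub_mem (hal i)
      (mul_mem_nonunits _ (mem_of_pow_mul_mem hB1 hm H hy1 i) (hv.nonunit i))
  refine ⟨a - π * y1, ?_, hs1, hs2, hsl⟩
  obtain ⟨i⟩ := ‹Nonempty ι›
  exact ne_zero_of_valuation_eq_one _ (valuation_eq_one_of_sub_mem _ (H.unit i) (hsl i))

end Fermat.Agent.BAD.Inj
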