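import Mathlib
import Fermat.Agent.S18.Abs.Newton
import Fermat.Agent.BAD.Inj.Basic

/-!
# Gluing roots along several branches (BAD, block L5-direct; pure ring theory)

`R` local, `m` invertible, `P i` finitely many ideals ("branches").  If a unit `w` has an `m`-th
root `b i` modulo every `P i`, if the `b i` have the same value at the closed point, and if
`P i + ⋂_{j ≠ i} P j` is primary to the maximal ideal, then the `b i` come from one element of `R`.
-/

namespace Fermat.Agent.BAD.Inj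

open IsLocalRing Fermat.Agent.S18.Abs

/-- Newton iteration modulo the powers of an ideal. -/
theorem newton_ideal {R : Type*} [CommRing R] (𝔞 : Ideal R) (m : ℕ) (minv : R)
    (hm : (m : R) * minv = 1) (w winv : R) (hw : w * winv = 1) (c : R) (hc : c ^ m - w ∈ 𝔞)
    (N : ℕ) : ∃ c' : R, c' - c ∈ 𝔞 ∧ c' ^ m - w ∈ 𝔞 ^ (N + 1) := by
  induction N with
  | zero => exact ⟨c, by simp, by simpa using hc⟩
  | succ N ih =>
    obtain ⟨c', h1, h2⟩ := ih
    set δ := c' ^ m - w with hδ
    set ε := δ * winv with hε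
    have hεmem : ε ∈ 𝔞 ^ (N + 1) := Ideal.mul_mem_right _ _ h2
    obtain ⟨r, hr⟩ := add_pow_expand (1 : R) (-(ε * minv)) m
    have hexp : (1 + -(ε * minv)) ^ m = 1 - ε + r * minv ^ 2 * ε ^ 2 := by
      rw [hr, one_pow, one_pow]
      linear_combination (-ε) * hm
    refine ⟨c' * (1 + -(ε * minv)), ?_, ?_⟩
    · have : c' * (1 + -(ε * minv)) - c = (c' - c) - (c' * minv) * ε := by ring
      rw [this]
      exact 𝔞.sub_mem h1 (𝔞.mul_mem_left _ (Ideal.pow_le_self (Nat.succ_ne_zero N) hεmem))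
    · have hc' : c' ^ m = w * (1 + ε) := by
        rw [hε, hδ]; linear_combination (w - c' ^ m) * hw
      have : (c' * (1 + -(ε * minv))) ^ m - w
          = (w * (-1 + (1 + ε) * (r * minv ^ 2))) * ε ^ 2 := by
        rw [mul_pow, hexp, hc']; ring
      rw [this]
      apply Ideal.mul_mem_left
      have h3 : ε ^ 2 ∈ (𝔞 ^ (N + 1)) ^ 2 := Ideal.pow_mem_pow hεmem 2
      rw [← pow_mul] at h3
      exact Ideal.pow_le_pow_right (by omega) h3

variable {R : Type*} [CommRing R] [IsLocalRing R] {ι : Type*}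

/-- **Gluing lemma** (conductor / Artinian Hensel argument). -/
theorem exists_common_root [Finite ι] (m : ℕ) (hm : IsUnit (m : R)) (P : ι → Ideal R)
    (hP : ∀ i, P i ≤ maximalIdeal R) (w : R) (hw : IsUnit w) (b : ι → R)
    (hb : ∀ i, b i ^ m - w ∈ P i) (hbb : ∀ i j, b i - b j ∈ maximalIdeal R)
    (hprim : ∀ i, ∃ N : ℕ, ∀ y ∈ maximalIdeal R ^ N,
      ∃ p ∈ P i, ∃ q, (∀ j, j ≠ i → q ∈ P j) ∧ y = p + q) :
    ∃ c : R, ∀ i, c - b i ∈ P i := by
  classical
  have := Fintype.ofFinite ι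
  rcases isEmpty_or_nonempty ι with hι | ⟨⟨i0⟩⟩
  · exact ⟨0, fun i => (hι.false i).elim⟩
  obtain ⟨minv, hminv⟩ := hm.exists_right_inv
  obtain ⟨winv, hwinv⟩ := hw.exists_right_inv
  choose N hN using hprim
  set M := Finset.univ.sup N with hM
  obtain ⟨c, hc1, hc2⟩ := newton_ideal (maximalIdeal R) m minv hminv w winv hwinv (b i0)
    (hP i0 (hb i0)) M
  have hm0 : m ≠ 0 := by
    rintro rfl
    simp at hm
  -- every `b i` is a unit
  have hbu : ∀ i, IsUnit (b i) := by
    intro i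
    by_contra hcon
    have h1 : b i ∈ maximalIdeal R := (mem_maximalIdeal _).2 hcon
    have h2 : w ∈ maximalIdeal R := by
      have : w = b i ^ m - (b i ^ m - w) := by ring
      rw [this]
      exact (maximalIdeal R).sub_mem (Ideal.pow_mem_of_mem _ h1 m (Nat.pos_of_ne_zero hm0))
        (hP i (hb i))
    exact ((mem_maximalIdeal _).1 h2) hw
  have hdiff : ∀ i, b i - c ∈ P i ⊔ maximalIdeal R ^ (M + 1) := by
    intro i
    apply sub_mem_of_pow_sub_pow_mem m hm (hbu i)
    · have : b i - c = (b i - b i0) - (c - b i0) := by ring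
      rw [this]; exact (maximalIdeal R).sub_mem (hbb i i0) hc1
    · have : b i ^ m - c ^ m = (b i ^ m - w) + -(c ^ m - w) := by ring
      rw [this]
      exact Submodule.add_mem_sup (hb i) (Ideal.neg_mem_iff _ |>.2 hc2)
  have hdec : ∀ i, ∃ p ∈ P i, ∃ q, (∀ j, j ≠ i → q ∈ P j) ∧ b i - c = p + q := by
    intro i
    obtain ⟨p, hp, y, hy, e⟩ := Submodule.mem_sup.1 (hdiff i)
    have hy' : y ∈ maximalIdeal R ^ N i :=
      Ideal.pow_le_pow_right ((Finset.le_sup (Finset.mem_univ i)).trans (Nat.le_succ _)) hy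
    obtain ⟨p', hp', q, hq, e'⟩ := hN i y hy'
    exact ⟨p + p', (P i).add_mem hp hp', q, hq, by rw [← e, e']; ring⟩
  choose p hp q hq e using hdec
  refine ⟨c + ∑ j, q j, fun i => ?_⟩
  have hsum : ∑ j, q j = q i + ∑ j ∈ Finset.univ.erase i, q j := by
    rw [Finset.add_sum_erase _ _ (Finset.mem_univ i)]
  have : c + ∑ j, q j - b i = -(p i) + ∑ j ∈ Finset.univ.erase i, q j := by
    rw [hsum]; linear_combination -(e i)
  rw [this]
  refine (P i).add_mem ((P i).neg_mem (hp i)) ((P i).sum_mem fun j hj => ?_)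
  exact hq j i (Finset.ne_of_mem_erase hj).symm

/-- the primary condition when `R ⧸ P` is a principal ideal domain. -/
theorem exists_pow_le_sup (P Q : Ideal R) [P.IsPrime] [IsPrincipalIdealRing (R ⧸ P)]
    (hQ : ¬ Q ≤ P) : ∃ N : ℕ, maximalIdeal R ^ N ≤ P ⊔ Q := by
  classical
  set mk := Ideal.Quotient.mk P with hmk
  have hsurj : Function.Surjective mk := Ideal.Quotient.mk_surjective
  have : IsLocalRing (R ⧸ P) := IsLocalRing.of_surjective' mk hsurj
  have hQne : Q.map mk ≠ ⊥ := by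
    intro h0
    apply hQ
    intro x hx
    have : mk x ∈ Q.map mk := Ideal.mem_map_of_mem _ hx
    rw [h0, Ideal.mem_bot] at this
    exact Ideal.Quotient.eq_zero_iff_mem.1 this
  have hmax : (maximalIdeal R).map mk ≤ maximalIdeal (R ⧸ P) := by
    rw [Ideal.map_le_iff_le_comap]
    intro x hx
    rw [Ideal.mem_comap, mem_maximalIdeal, mem_nonunits_iff]
    intro hu
    have hl : IsLocalHom mk := IsLocalHom.of_surjective mk hsurj
    exact ((mem_maximalIdeal _).1 hx) (hl.map_nonunit x hu)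
  have key : ∃ N : ℕ, maximalIdeal (R ⧸ P) ^ N ≤ Q.map mk := by
    by_cases hf : IsField (R ⧸ P)
    · refine ⟨0, ?_⟩
      let _ := hf.toField
      rw [(Ideal.eq_bot_or_top (Q.map mk)).resolve_left hQne]
      exact le_top
    · have hdvr : IsDiscreteValuationRing (R ⧸ P) :=
        { not_a_field' := fun h => hf (IsLocalRing.isField_iff_maximalIdeal_eq.2 h) }
      obtain ⟨ϖ, hϖ⟩ := IsDiscreteValuationRing.exists_irreducible (R ⧸ P)
      obtain ⟨n, hn⟩ := IsDiscreteValuationRing.ideal_eq_span_pow_irreducible hQne hϖ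
      refine ⟨n, ?_⟩
      rw [hn, hϖ.maximalIdeal_eq, Ideal.span_singleton_pow]
  obtain ⟨N, hN⟩ := key
  refine ⟨N, fun y hy => ?_⟩
  have h1 : mk y ∈ Q.map mk := by
    apply hN
    have : mk y ∈ (maximalIdeal R ^ N).map mk := Ideal.mem_map_of_mem _ hy
    rw [Ideal.map_pow] at this
    exact Ideal.pow_right_mono hmax N this
  obtain ⟨q, hq, e⟩ := (Ideal.mem_map_iff_of_surjective mk hsurj).1 h1
  have h2 : y - q ∈ P := by
    rw [← Ideal.Quotient.eq_zero_iff_mem, map_sub, ← hmk, e, sub_self]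
  have : y = (y - q) + q := by ring
  rw [this]
  exact Submodule.add_mem_sup h2 hq

/-- the primary condition of `exists_common_root` for pairwise incomparable primes with principal
quotient. -/
theorem prim_of_pid [Finite ι] (P : ι → Ideal R) (i : ι) [(P i).IsPrime]
    [IsPrincipalIdealRing (R ⧸ P i)] (hinc : ∀ j, j ≠ i → ¬ P j ≤ P i) :
    ∃ N : ℕ, ∀ y ∈ maximalIdeal R ^ N, ∃ p ∈ P i, ∃ q, (∀ j, j ≠ i → q ∈ P j) ∧ y = p + q := by
  classical
  have := Fintype.ofFinite ι
  have hQ : ¬ (Finset.univ.erase i).inf P ≤ P i := by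
    rw [Ideal.IsPrime.inf_le' inferInstance]
    rintro ⟨j, hj, hle⟩
    exact hinc j (Finset.ne_of_mem_erase hj) hle
  obtain ⟨N, hN⟩ := exists_pow_le_sup (P i) _ hQ
  refine ⟨N, fun y hy => ?_⟩
  obtain ⟨p, hp, q, hq, e⟩ := Submodule.mem_sup.1 (hN hy)
  refine ⟨p, hp, q, fun j hj => ?_, e.symm⟩
  exact (Finset.inf_le (Finset.mem_erase.2 ⟨hj, Finset.mem_univ j⟩) : _ ≤ P j) hq

end Fermat.Agent.BAD.Inj
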