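import Mathlib
import Fermat.Agent.BAD.Inj.Core
import Fermat.Agent.BAD.Inj.Glue

/-!
# Local triviality from trivial gluing data (BAD, block L4/L5-direct)

`B ⊆ F` a chart, `𝔫` a prime of `B`, `R = B_𝔫`.  A local root `g` (`g ^ m * u ∈ R^×`), elements
`b i ∈ R` with `g ≡ lam i * b i` at the vertical valuations through `𝔫`, having the same value at
the closed point: then the condition of `LocTriv` holds at `𝔫`.
-/

namespace Fermat.Agent.BAD.Inj

open IsLocalRing

variable {F : Type*} [Field F] {ι : Type*}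

/-- the vertical component `i` passes through the point `𝔫`. -/
def Through (v : ι → ValuationSubring F) {B : Subring F} (𝔫 : Ideal B) (i : ι) : Prop :=
  ∀ b : B, (b : F) ∈ (v i).nonunits → b ∈ 𝔫

/-- the ideal of a ring `R → F` with image in `V` cut out by the maximal ideal of `V`. -/
def vertIdeal (V : ValuationSubring F) (R : Type*) [CommRing R] [Algebra R F]
    (h : ∀ r : R, algebraMap R F r ∈ V) : Ideal R where
  carrier := {r | algebraMap R F r ∈ V.nonunits}
  zero_mem' := by simp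
  add_mem' := by
    intro a b ha hb
    simp only [Set.mem_ofPred_eq, map_add] at *
    exact V.nonunits.add_mem ha hb
  smul_mem' := by
    intro c x hx
    simp only [Set.mem_ofPred_eq, smul_eq_mul, map_mul] at *
    exact mul_mem_nonunits V (h c) hx

theorem mem_vertIdeal {V : ValuationSubring F} {R : Type*} [CommRing R] [Algebra R F]
    {h : ∀ r : R, algebraMap R F r ∈ V} {r : R} :
    r ∈ vertIdeal V R h ↔ algebraMap R F r ∈ V.nonunits := Iff.rfl

theorem vertIdeal_le_maximalIdeal {V : ValuationSubring F} {R : Type*} [CommRing R] [Algebra R F]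
    [IsLocalRing R] (h : ∀ r : R, algebraMap R F r ∈ V) : vertIdeal V R h ≤ maximalIdeal R := by
  intro r hr
  rw [mem_maximalIdeal, mem_nonunits_iff]
  rintro ⟨x, rfl⟩
  rw [mem_vertIdeal] at hr
  have h1 := mul_mem_nonunits V (h (↑x⁻¹ : R)) hr
  rw [← map_mul, Units.inv_mul, map_one, V.mem_nonunits_iff, map_one] at h1
  exact lt_irrefl _ h1

theorem valuation_eq_one_of_not_mem_nonunits (V : ValuationSubring F) {x : F} (hx : x ∈ V)
    (h : x ∉ V.nonunits) : V.valuation x = 1 := by
  rw [V.mem_nonunits_iff, not_lt] at h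
  exact le_antisymm ((V.valuation_le_one_iff x).2 hx) h

section

variable {v : ι → ValuationSubring F} {B : Subring F}

/-- `B_𝔫 ⊆ v i` if the component `i` passes through `𝔫`. -/
theorem algebraMap_mem_of_through (hBv : ∀ b ∈ B, ∀ i, b ∈ v i) (𝔫 : Ideal B) [𝔫.IsPrime]
    (R : Type*) [CommRing R] [Algebra B R] [IsLocalization.AtPrime R 𝔫] [Algebra R F]
    [IsScalarTower B R F] {i : ι} (hi : Through v 𝔫 i) (r : R) : algebraMap R F r ∈ v i := by
  obtain ⟨b, s, rfl⟩ := IsLocalization.exists_mk'_eq 𝔫.primeCompl r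
  have hsv : (v i).valuation ((s : B) : F) = 1 :=
    valuation_eq_one_of_not_mem_nonunits _ (hBv _ (s : B).2 i) (fun h => s.2 (hi _ h))
  have hsF : ((s : B) : F) ≠ 0 := ne_zero_of_valuation_eq_one _ hsv
  have e : algebraMap R F (IsLocalization.mk' R b s) = (b : F) * ((s : B) : F)⁻¹ := by
    rw [← div_eq_mul_inv, eq_div_iff hsF]
    have h1 : ((s : B) : F) = algebraMap R F (algebraMap B R s) := by
      rw [← IsScalarTower.algebraMap_apply]; rfl
    rw [h1, ← map_mul, IsLocalization.mk'_spec, ← IsScalarTower.algebraMap_apply]; rfl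
  rw [e]
  exact (v i).mul_mem _ _ (hBv _ b.2 i) (inv_mem_of_valuation_eq_one _ hsv)

/-- a unit of `B_𝔫` as a fraction. -/
theorem exists_frac_of_isUnit (𝔫 : Ideal B) [𝔫.IsPrime]
    (R : Type*) [CommRing R] [Algebra B R] [IsLocalization.AtPrime R 𝔫] [Algebra R F]
    [IsScalarTower B R F] {r : R} (hr : IsUnit r) :
    ∃ a s : B, a ∉ 𝔫 ∧ s ∉ 𝔫 ∧ algebraMap R F r * (s : F) = (a : F) := by
  obtain ⟨a, s, rfl⟩ := IsLocalization.exists_mk'_eq 𝔫.primeCompl r
  refine ⟨a, s, (IsLocalization.AtPrime.isUnit_mk'_iff R 𝔫 a s).1 hr, s.2, ?_⟩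
  have h1 : ((s : B) : F) = algebraMap R F (algebraMap B R s) := by
    rw [← IsScalarTower.algebraMap_apply]; rfl
  rw [h1, ← map_mul, IsLocalization.mk'_spec, ← IsScalarTower.algebraMap_apply]; rfl

/-- **Trivial gluing data imply local triviality.** -/
theorem locTriv_at_of_glue [Finite ι] (hBv : ∀ b ∈ B, ∀ i, b ∈ v i) {m : ℕ} (hm : 0 < m)
    {lam : ι → F} {u : F} (H : ResRoot v lam m u) (𝔫 : Ideal B) [𝔫.IsPrime]
    (R : Type*) [CommRing R] [IsLocalRing R] [Algebra B R] [IsLocalization.AtPrime R 𝔫]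
    [Algebra R F] [IsScalarTower B R F] (hmR : IsUnit (m : R))
    (g : F) (w : R) (hw : IsUnit w) (hg : g ^ m * u = algebraMap R F w) (b : ι → R)
    (hb : ∀ i, Through v 𝔫 i → g - lam i * algebraMap R F (b i) ∈ (v i).nonunits)
    (hbb : ∀ i j, Through v 𝔫 i → Through v 𝔫 j → b i - b j ∈ maximalIdeal R)
    (hprim : ∀ i, Through v 𝔫 i → ∃ N : ℕ, ∀ y ∈ maximalIdeal R ^ N, ∃ p q : R,
      algebraMap R F p ∈ (v i).nonunits ∧
      (∀ j, Through v 𝔫 j → j ≠ i → algebraMap R F q ∈ (v j).nonunits) ∧ y = p + q) :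
    ∃ c : F, c ^ m * u ∈ B ∧ ∃ b : B, b ∉ 𝔫 ∧ ∀ i, c - lam i * b ∈ (v i).nonunits := by
  classical
  have := Fintype.ofFinite ι
  have hRv : ∀ i, Through v 𝔫 i → ∀ r : R, algebraMap R F r ∈ v i :=
    fun i hi r => algebraMap_mem_of_through hBv 𝔫 R hi r
  -- units of `R` are units of `v i`
  have hRu : ∀ i, Through v 𝔫 i → ∀ r : R, IsUnit r → (v i).valuation (algebraMap R F r) = 1 := by
    intro i hi r hr
    apply valuation_eq_one_of_not_mem_nonunits _ (hRv i hi r)
    intro hcon
    exact ((mem_maximalIdeal _).1 (vertIdeal_le_maximalIdeal (hRv i hi) hcon)) hr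
  have hgv : ∀ i, Through v 𝔫 i → (v i).valuation g = 1 := by
    intro i hi
    have h1 := hRu i hi w hw
    rw [← hg, map_mul, H.valuation_u i, mul_one, map_pow] at h1
    exact (pow_eq_one_iff_of_nonneg zero_le hm.ne').1 h1
  -- the common root
  obtain ⟨c0, hc0u, hc0⟩ : ∃ c0 : R, IsUnit c0 ∧
      ∀ i, Through v 𝔫 i → algebraMap R F (c0 - b i) ∈ (v i).nonunits := by
    by_cases hne : ∃ i, Through v 𝔫 i
    · obtain ⟨i0, hi0⟩ := hne
      have hbm : ∀ i : {i // Through v 𝔫 i}, b i ^ m - w ∈ vertIdeal (v i) R (hRv i i.2) := by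
        rintro ⟨i, hi⟩
        rw [mem_vertIdeal, map_sub, map_pow, ← hg]
        set β := algebraMap R F (b i) with hβ
        have hβV : β ∈ v i := hRv i hi _
        have hl : lam i ∈ v i := mem_of_valuation_eq_one _ (H.unit i)
        have h1 : g ^ m - (lam i * β) ^ m ∈ (v i).nonunits :=
          pow_sub_pow_mem_nonunits _ (mem_of_valuation_eq_one _ (hgv i hi))
            ((v i).mul_mem _ _ hl hβV) (hb i hi) m
        have : β ^ m - g ^ m * u
            = -((g ^ m - (lam i * β) ^ m) * u) - β ^ m * (lam i ^ m * u - 1) := by ring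
        rw [this]
        exact (v i).nonunits.sub_mem
          ((v i).nonunits.neg_mem (mul_mem_nonunits' _ h1
            (mem_of_valuation_eq_one _ (H.valuation_u i))))
          (mul_mem_nonunits _ ((v i).pow_mem hβV _) (H.congr i))
      obtain ⟨c0, hc0⟩ := exists_common_root (ι := {i // Through v 𝔫 i}) m hmR
        (fun i => vertIdeal (v i) R (hRv i i.2))
        (fun i => vertIdeal_le_maximalIdeal _) w hw (fun i => b i) hbm
        (fun i j => hbb i j i.2 j.2)
        (by
          rintro ⟨i, hi⟩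
          obtain ⟨N, hN⟩ := hprim i hi
          refine ⟨N, fun y hy => ?_⟩
          obtain ⟨p, q, hp, hq, e⟩ := hN y hy
          exact ⟨p, hp, q, fun j hj => hq j j.2 (fun h => hj (Subtype.ext h)), e⟩)
      refine ⟨c0, ?_, fun i hi => hc0 ⟨i, hi⟩⟩
      -- `c0` is a unit
      by_contra hcon
      have h1 : c0 ∈ maximalIdeal R := (mem_maximalIdeal _).2 hcon
      have h2 : b i0 ∈ maximalIdeal R := by
        have : b i0 = c0 - (c0 - b i0) := by ring
        rw [this]
        exact (maximalIdeal R).sub_mem h1 (vertIdeal_le_maximalIdeal _ (hc0 ⟨i0, hi0⟩))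
      have h3 : w ∈ maximalIdeal R := by
        have : w = b i0 ^ m - (b i0 ^ m - w) := by ring
        rw [this]
        exact (maximalIdeal R).sub_mem (Ideal.pow_mem_of_mem _ h2 m hm)
          (vertIdeal_le_maximalIdeal _ (hbm ⟨i0, hi0⟩))
      exact ((mem_maximalIdeal _).1 h3) hw
    · exact ⟨1, isUnit_one, fun i hi => (hne ⟨i, hi⟩).elim⟩
  obtain ⟨a1, s1, ha1, hs1, e1⟩ := exists_frac_of_isUnit (F := F) 𝔫 R hc0u
  obtain ⟨a0, s0, ha0, hs0, e0⟩ := exists_frac_of_isUnit (F := F) 𝔫 R hw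
  -- the multiplier killing the components which do not pass through `𝔫`
  have hex : ∀ i, ∃ e : B, e ∉ 𝔫 ∧ (¬ Through v 𝔫 i → (e : F) ∈ (v i).nonunits) := by
    intro i
    by_cases hi : Through v 𝔫 i
    · exact ⟨1, fun h => (Ideal.IsPrime.ne_top inferInstance) ((Ideal.eq_top_iff_one 𝔫).2 h),
        fun h => (h hi).elim⟩
    · have hi' := hi
      unfold Through at hi'
      push Not at hi'
      obtain ⟨e, he1, he2⟩ := hi'
      exact ⟨e, he2, fun _ => he1⟩
  choose e he1 he2 using hex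
  set Ee : B := ∏ i, e i with hEe
  have hEe𝔫 : Ee ∉ 𝔫 := by
    rw [hEe, Ideal.IsPrime.prod_mem_iff]
    rintro ⟨i, -, hi⟩
    exact he1 i hi
  have hEev : ∀ i, ¬ Through v 𝔫 i → (Ee : F) ∈ (v i).nonunits := by
    intro i hi
    rw [hEe, ← Finset.mul_prod_erase _ _ (Finset.mem_univ i), Subring.coe_mul]
    exact mul_mem_nonunits' _ (he2 i hi) (hBv _ (Subtype.mem _) i)
  obtain ⟨k, rfl⟩ : ∃ k, m = k + 1 := ⟨m - 1, by omega⟩
  have hcm : (g * (s0 * s1 * Ee : B)) ^ (k + 1) * u
      = ((a0 * s0 ^ k * (s1 * Ee) ^ (k + 1) : B) : F) := by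
    have : (g * ((s0 * s1 * Ee : B) : F)) ^ (k + 1) * u
        = (g ^ (k + 1) * u * (s0 : F)) * (s0 : F) ^ k * ((s1 : F) * (Ee : F)) ^ (k + 1) := by
      push_cast; ring
    rw [this, hg, e0]
    push_cast; ring
  refine ⟨g * (s0 * s1 * Ee : B), ?_, a1 * s0 * Ee, ?_, fun i => ?_⟩
  · rw [hcm]; exact Subtype.mem _
  · intro h
    rcases (Ideal.IsPrime.mem_or_mem inferInstance h) with h | h
    · rcases (Ideal.IsPrime.mem_or_mem inferInstance h) with h | h
      · exact ha1 h
      · exact hs0 h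
    · exact hEe𝔫 h
  · by_cases hi : Through v 𝔫 i
    · have h1 : g - lam i * algebraMap R F c0 ∈ (v i).nonunits := by
        have : g - lam i * algebraMap R F c0
            = (g - lam i * algebraMap R F (b i)) - lam i * algebraMap R F (c0 - b i) := by
          rw [map_sub]; ring
        rw [this]
        exact (v i).nonunits.sub_mem (hb i hi)
          (mul_mem_nonunits _ (mem_of_valuation_eq_one _ (H.unit i)) (hc0 i hi))
      have : g * ((s0 * s1 * Ee : B) : F) - lam i * ((a1 * s0 * Ee : B) : F)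
          = ((s0 * s1 * Ee : B) : F) * (g - lam i * algebraMap R F c0) := by
        push_cast
        rw [← e1]; ring
      rw [this]
      exact mul_mem_nonunits _ (hBv _ (Subtype.mem _) i) h1
    · apply (v i).nonunits.sub_mem
      · -- `c ^ m * u` is a non-unit, hence so is `c`
        rw [(v i).mem_nonunits_iff]
        have h1 : ((a0 * s0 ^ k * (s1 * Ee) ^ (k + 1) : B) : F) ∈ (v i).nonunits := by
          have : ((a0 * s0 ^ k * (s1 * Ee) ^ (k + 1) : B) : F)
              = ((a0 * s0 ^ k * s1 ^ (k + 1) * Ee ^ k : B) : F) * (Ee : F) := by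
            push_cast; ring
          rw [this]
          exact mul_mem_nonunits _ (hBv _ (Subtype.mem _) i) (hEev i hi)
        rw [← hcm, (v i).mem_nonunits_iff, map_mul, H.valuation_u i, mul_one, map_pow] at h1
        exact (pow_lt_one_iff_of_nonneg zero_le (Nat.succ_ne_zero k)).1 h1
      · have : lam i * ((a1 * s0 * Ee : B) : F) = (lam i * ((a1 * s0 : B) : F)) * (Ee : F) := by
          push_cast; ring
        rw [this]
        exact mul_mem_nonunits _ ((v i).mul_mem _ _ (mem_of_valuation_eq_one _ (H.unit i))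
          (hBv _ (Subtype.mem _) i)) (hEev i hi)

end

end Fermat.Agent.BAD.Inj
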