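import Mathlib
import Fermat.Agent.BAD.Inj.Local

/-!
# Reductions of roots lie in the local ring of a normal component (BAD, block L4)

`R → F` with image in the valuation subring `V`, `P = vertIdeal V R` the centre of `V`.
If `V` is the localisation of `R` at `P` and `R ⧸ P` is integrally closed, then every `z ∈ V`
with `z ^ m ≡ r ∈ R` is itself congruent to an element of `R`.
-/

namespace Fermat.Agent.BAD.Inj

open IsLocalRing

variable {F : Type*} [Field F]

instance vertIdeal_isPrime (V : ValuationSubring F) (R : Type*) [CommRing R] [Algebra R F]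
    (h : ∀ r : R, algebraMap R F r ∈ V) : (vertIdeal V R h).IsPrime where
  ne_top' := by
    rw [Ideal.ne_top_iff_one, mem_vertIdeal, map_one, V.mem_nonunits_iff, map_one]
    exact lt_irrefl _
  mem_or_mem' := by
    intro x y hxy
    rw [mem_vertIdeal, map_mul] at hxy
    by_contra hcon
    push Not at hcon
    have h1 := valuation_eq_one_of_not_mem_nonunits V (h x) hcon.1
    have h2 := valuation_eq_one_of_not_mem_nonunits V (h y) hcon.2
    rw [V.mem_nonunits_iff, map_mul, h1, h2, one_mul] at hxy
    exact lt_irrefl _ hxy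

/-- **Existence of the reduction.** -/
theorem exists_red (V : ValuationSubring F) (R : Type*) [CommRing R] [Algebra R F]
    (h : ∀ r : R, algebraMap R F r ∈ V) [IsIntegrallyClosed (R ⧸ vertIdeal V R h)]
    (hloc : ∀ z ∈ V, ∃ a s : R, algebraMap R F s ∉ V.nonunits ∧
      z * algebraMap R F s = algebraMap R F a)
    {m : ℕ} (hm : m ≠ 0) {z : F} (hz : z ∈ V) (r : R)
    (hzr : z ^ m - algebraMap R F r ∈ V.nonunits) :
    ∃ b : R, z - algebraMap R F b ∈ V.nonunits := by
  set P := vertIdeal V R h with hP
  obtain ⟨a, s, hs, e⟩ := hloc z hz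
  have hsv : V.valuation (algebraMap R F s) = 1 :=
    valuation_eq_one_of_not_mem_nonunits V (h s) hs
  have hs0 := ne_zero_of_valuation_eq_one _ hsv
  have h1 : a ^ m - r * s ^ m ∈ P := by
    rw [hP, mem_vertIdeal, map_sub, map_mul, map_pow, map_pow, ← e]
    have : (z * algebraMap R F s) ^ m - algebraMap R F r * algebraMap R F s ^ m
        = algebraMap R F s ^ m * (z ^ m - algebraMap R F r) := by ring
    rw [this]
    exact mul_mem_nonunits V (V.pow_mem (h s) _) hzr
  have h2 : Ideal.Quotient.mk P s ^ m ∣ Ideal.Quotient.mk P a ^ m := by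
    refine ⟨Ideal.Quotient.mk P r, ?_⟩
    rw [← map_pow, ← map_pow, ← map_mul, Ideal.Quotient.eq]
    have : a ^ m - s ^ m * r = a ^ m - r * s ^ m := by ring
    rw [this]; exact h1
  obtain ⟨bbar, hb⟩ := (IsIntegrallyClosed.pow_dvd_pow_iff hm).1 h2
  obtain ⟨b, rfl⟩ := Ideal.Quotient.mk_surjective bbar
  rw [← map_mul, Ideal.Quotient.eq, hP, mem_vertIdeal, map_sub, map_mul, ← e] at hb
  refine ⟨b, ?_⟩
  have : z - algebraMap R F b
      = (algebraMap R F s)⁻¹ * (z * algebraMap R F s - algebraMap R F s * algebraMap R F b) := by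
    field_simp
  rw [this]
  exact mul_mem_nonunits V (inv_mem_of_valuation_eq_one _ hsv) hb

end Fermat.Agent.BAD.Inj
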