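import Mathlib
import Fermat.Agent.BAD.Inj.Local
import Fermat.Agent.BAD.Inj.Red

/-!
# Local triviality, in the language "closed point = local subring of `F`" (BAD, block L4/L5)

`B ⊆ F` a chart, `𝔫` a prime of `B`, `R ⊆ F` a local subring which is the localisation `B_𝔫`.
A vertical valuation subring `W` passes through `R` if `R ≤ W`; it is a *branch* at `R` if the image
of `R` in the residue field of `W` is a valuation ring.
-/

namespace Fermat.Agent.BAD.Inj

open IsLocalRing

variable {F : Type*} [Field F] {ι : Type*}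

/-- `R` is the localisation of `B` at `𝔫`, inside `F`. -/
structure IsLocAt (B : Subring F) (𝔫 : Ideal B) (R : Subring F) : Prop where
  le : B ≤ R
  frac : ∀ r ∈ R, ∃ s : B, s ∉ 𝔫 ∧ r * (s : F) ∈ B
  inv : ∀ s : B, s ∉ 𝔫 → (s : F)⁻¹ ∈ R

/-- the image of `R` in the residue field of `W` is a valuation ring. -/
def Branch (W : ValuationSubring F) (R : Subring F) : Prop :=
  ∀ s : F, W.valuation s = 1 → ∃ η ∈ R, s - η ∈ W.nonunits ∨ s⁻¹ - η ∈ W.nonunits

theorem IsLocAt.isLocalization {B : Subring F} {𝔫 : Ideal B} [𝔫.IsPrime] {R : Subring F}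
    (H : IsLocAt B 𝔫 R) :
    letI : Algebra B R := (Subring.inclusion H.le).toAlgebra
    IsLocalization.AtPrime R 𝔫 := by
  let _ : Algebra B R := (Subring.inclusion H.le).toAlgebra
  have hmap : ∀ b : B, ((algebraMap B R b : R) : F) = (b : F) := fun b => rfl
  refine ⟨?_, ?_, ?_⟩
  · rintro ⟨s, hs⟩
    have hs0 : (s : F) ≠ 0 := by
      intro h0
      apply hs
      have : s = 0 := Subtype.ext h0
      rw [this]; exact 𝔫.zero_mem
    refine ⟨⟨algebraMap B R s, ⟨_, H.inv s hs⟩, Subtype.ext ?_, Subtype.ext ?_⟩, rfl⟩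
    · show ((algebraMap B R s : R) : F) * (s : F)⁻¹ = 1
      rw [hmap]; exact mul_inv_cancel₀ hs0
    · show (s : F)⁻¹ * ((algebraMap B R s : R) : F) = 1
      rw [hmap]; exact inv_mul_cancel₀ hs0
  · intro r
    obtain ⟨s, hs, hrs⟩ := H.frac r r.2
    exact ⟨(⟨_, hrs⟩, ⟨s, hs⟩), Subtype.ext rfl⟩
  · intro x y hxy
    refine ⟨1, ?_⟩
    have : (x : F) = y := by rw [← hmap x, ← hmap y, hxy]
    rw [Subtype.ext this]

/-- "through" in the two languages. -/
theorem IsLocAt.through_iff {B : Subring F} {𝔫 : Ideal B} [𝔫.IsPrime] {R : Subring F}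
    (H : IsLocAt B 𝔫 R) {v : ι → ValuationSubring F} (hBv : ∀ b ∈ B, ∀ i, b ∈ v i) (i : ι) :
    Through v 𝔫 i ↔ R ≤ (v i).toSubring := by
  constructor
  · intro hi r hr
    obtain ⟨s, hs, hrs⟩ := H.frac r hr
    have hsv : (v i).valuation (s : F) = 1 :=
      valuation_eq_one_of_not_mem_nonunits _ (hBv _ s.2 i) (fun h => hs (hi _ h))
    have hs0 := ne_zero_of_valuation_eq_one _ hsv
    have : r = (r * (s : F)) * (s : F)⁻¹ := by field_simp
    rw [this]
    exact (v i).mul_mem _ _ (hBv _ hrs i) (inv_mem_of_valuation_eq_one _ hsv)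
  · intro hR b hb
    by_contra hcon
    have h1 : (b : F)⁻¹ ∈ v i := hR (H.inv b hcon)
    rw [(v i).mem_nonunits_iff_or] at hb
    rcases hb with h0 | h0
    · apply hcon
      have : b = 0 := Subtype.ext h0
      rw [this]; exact 𝔫.zero_mem
    · exact h0 h1

section Branch

variable {W : ValuationSubring F} {R : Subring F}

theorem algebraMap_subring_mem (hRW : R ≤ W.toSubring) (r : R) : algebraMap R F r ∈ W := hRW r.2

/-- the quotient of `R` by the centre of a branch is a valuation ring. -/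
theorem Branch.valuationRing (hb : Branch W R) (hRW : R ≤ W.toSubring) :
    ValuationRing (R ⧸ vertIdeal W R (algebraMap_subring_mem hRW)) := by
  set P := vertIdeal W R (algebraMap_subring_mem hRW) with hP
  rw [ValuationRing.iff_dvd_total]
  refine ⟨fun a b => ?_⟩
  obtain ⟨a, rfl⟩ := Ideal.Quotient.mk_surjective a
  obtain ⟨b, rfl⟩ := Ideal.Quotient.mk_surjective b
  by_cases ha : a ∈ P
  · right
    rw [Ideal.Quotient.eq_zero_iff_mem.2 ha]; exact dvd_zero _
  by_cases hb' : b ∈ P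
  · left
    rw [Ideal.Quotient.eq_zero_iff_mem.2 hb']; exact dvd_zero _
  have hav : W.valuation (a : F) = 1 := valuation_eq_one_of_not_mem_nonunits _ (hRW a.2) ha
  have hbv : W.valuation (b : F) = 1 := valuation_eq_one_of_not_mem_nonunits _ (hRW b.2) hb'
  have ha0 := ne_zero_of_valuation_eq_one _ hav
  have hb0 := ne_zero_of_valuation_eq_one _ hbv
  obtain ⟨η, hη, h | h⟩ := hb ((a : F) / b) (by rw [map_div₀, hav, hbv, div_one])
  · right
    refine ⟨Ideal.Quotient.mk P ⟨η, hη⟩, ?_⟩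
    rw [← map_mul, Ideal.Quotient.eq, mem_vertIdeal]
    have : algebraMap R F (a - b * ⟨η, hη⟩) = (b : F) * ((a : F) / b - η) := by
      show (a : F) - (b : F) * η = _
      field_simp
    rw [this]
    exact mul_mem_nonunits _ (hRW b.2) h
  · left
    refine ⟨Ideal.Quotient.mk P ⟨η, hη⟩, ?_⟩
    rw [← map_mul, Ideal.Quotient.eq, mem_vertIdeal]
    have : algebraMap R F (b - a * ⟨η, hη⟩) = (a : F) * (((a : F) / b)⁻¹ - η) := by
      show (b : F) - (a : F) * η = _
      field_simp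
    rw [this]
    exact mul_mem_nonunits _ (hRW a.2) h

theorem Branch.isPrincipalIdealRing [IsNoetherianRing R] (hb : Branch W R)
    (hRW : R ≤ W.toSubring) :
    IsPrincipalIdealRing (R ⧸ vertIdeal W R (algebraMap_subring_mem hRW)) := by
  have := hb.valuationRing hRW
  have h : IsNoetherianRing (R ⧸ vertIdeal W R (algebraMap_subring_mem hRW)) ↔
      IsPrincipalIdealRing (R ⧸ vertIdeal W R (algebraMap_subring_mem hRW)) :=
    (IsBezout.TFAE (R := R ⧸ vertIdeal W R (algebraMap_subring_mem hRW))).out 0 1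
  exact h.1 inferInstance

/-- reductions of roots of units, for a branch. -/
theorem Branch.exists_red [IsLocalRing R] (hb : Branch W R) (hRW : R ≤ W.toSubring) {m : ℕ}
    (hm : m ≠ 0) {z : F} (hz : W.valuation z = 1) (r : R) (hr : IsUnit r)
    (hzr : z ^ m - (r : F) ∈ W.nonunits) : ∃ η : R, IsUnit η ∧ z - (η : F) ∈ W.nonunits := by
  have hz0 := ne_zero_of_valuation_eq_one _ hz
  have hzW := mem_of_valuation_eq_one _ hz
  have hP := vertIdeal_le_maximalIdeal (algebraMap_subring_mem hRW)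
  -- an element of `R` whose `m`-th power is congruent to a unit is a unit
  have key : ∀ (η r' : R), IsUnit r' → (η : F) ^ m - (r' : F) ∈ W.nonunits → IsUnit η := by
    intro η r' hr' h
    by_contra hcon
    have h1 : η ∈ maximalIdeal R := (mem_maximalIdeal _).2 hcon
    have h2 : η ^ m - r' ∈ maximalIdeal R := hP h
    have h3 : r' ∈ maximalIdeal R := by
      have : r' = η ^ m - (η ^ m - r') := by ring
      rw [this]
      exact (maximalIdeal R).sub_mem (Ideal.pow_mem_of_mem _ h1 m (Nat.pos_of_ne_zero hm)) h2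
    exact ((mem_maximalIdeal _).1 h3) hr'
  obtain ⟨η, hη, h | h⟩ := hb z hz
  · refine ⟨⟨η, hη⟩, key ⟨η, hη⟩ r hr ?_, h⟩
    have : η ^ m - (r : F) = (z ^ m - (r : F)) - (z ^ m - η ^ m) := by ring
    show η ^ m - (r : F) ∈ W.nonunits
    rw [this]
    exact W.nonunits.sub_mem hzr (pow_sub_pow_mem_nonunits _ hzW (hRW hη) h m)
  · -- `z⁻¹ ≡ η`, so `η ^ m ≡ r⁻¹`
    obtain ⟨r', hr'⟩ := hr.exists_right_inv
    have hr'F : (r : F) * (r' : F) = 1 := congrArg Subtype.val hr'
    have hziW := inv_mem_of_valuation_eq_one _ hz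
    have hηu : IsUnit (⟨η, hη⟩ : R) := by
      apply key ⟨η, hη⟩ r' (IsUnit.of_mul_eq_one _ (by rw [mul_comm]; exact hr'))
      show η ^ m - (r' : F) ∈ W.nonunits
      have e : η ^ m - (r' : F)
          = -((z⁻¹) ^ m - η ^ m) + (-((z⁻¹) ^ m * (r' : F))) * (z ^ m - (r : F)) := by
        have : (z⁻¹) ^ m * z ^ m = 1 := by rw [← mul_pow, inv_mul_cancel₀ hz0, one_pow]
        linear_combination (r' : F) * this - (z⁻¹) ^ m * hr'F
      rw [e]
      exact W.nonunits.add_mem
        (W.nonunits.neg_mem (pow_sub_pow_mem_nonunits _ hziW (hRW hη) h m))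
        (mul_mem_nonunits _ (W.neg_mem _ (W.mul_mem _ _ (W.pow_mem hziW _) (hRW r'.2))) hzr)
    obtain ⟨η', hη'⟩ := hηu.exists_right_inv
    have hη'F : η * (η' : F) = 1 := congrArg Subtype.val hη'
    refine ⟨η', IsUnit.of_mul_eq_one _ (by rw [mul_comm]; exact hη'), ?_⟩
    have e : z - (η' : F) = (-(z * (η' : F))) * (z⁻¹ - η) := by
      have : z * z⁻¹ = 1 := mul_inv_cancel₀ hz0
      linear_combination (η' : F) * this - z * hη'F
    rw [e]
    exact mul_mem_nonunits _ (W.neg_mem _ (W.mul_mem _ _ hzW (hRW η'.2))) h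

end Branch

/-- **Trivial gluing data imply local triviality**, local subring form.  `c` is the common value at
the closed point of the reductions of `g / lam i` on the branches through `R`. -/
theorem locTriv_at_of_branch [Finite ι] {v : ι → ValuationSubring F} {B : Subring F}
    (hBv : ∀ b ∈ B, ∀ i, b ∈ v i) {m : ℕ} (hm : 0 < m) {lam : ι → F} {u : F}
    (H : ResRoot v lam m u) (𝔫 : Ideal B) [𝔫.IsPrime] (R : Subring F) [IsLocalRing R]
    [IsNoetherianRing R] (hR : IsLocAt B 𝔫 R) (hmR : IsUnit (m : R))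
    (hbr : ∀ i, R ≤ (v i).toSubring → Branch (v i) R)
    (hinc : ∀ i j, R ≤ (v i).toSubring → R ≤ (v j).toSubring → i ≠ j →
      ∃ r ∈ R, r ∈ (v j).nonunits ∧ r ∉ (v i).nonunits)
    (g : F) (w : R) (hw : IsUnit w) (hg : g ^ m * u = w) (c : R)
    (hval : ∀ i, R ≤ (v i).toSubring →
      ∃ η : R, g - lam i * (η : F) ∈ (v i).nonunits ∧ η - c ∈ maximalIdeal R) :
    ∃ c : F, c ^ m * u ∈ B ∧ ∃ b : B, b ∉ 𝔫 ∧ ∀ i, c - lam i * b ∈ (v i).nonunits := by
  classical
  let _ : Algebra B R := (Subring.inclusion hR.le).toAlgebra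
  have : IsLocalization.AtPrime R 𝔫 := hR.isLocalization
  have : IsScalarTower B R F := IsScalarTower.of_algebraMap_eq (fun _ => rfl)
  have hthr : ∀ i, Through v 𝔫 i ↔ R ≤ (v i).toSubring := fun i => hR.through_iff hBv i
  have hex : ∀ i, ∃ η : R, Through v 𝔫 i →
      (g - lam i * (η : F) ∈ (v i).nonunits ∧ η - c ∈ maximalIdeal R) := by
    intro i
    by_cases hi : Through v 𝔫 i
    · obtain ⟨η, h⟩ := hval i ((hthr i).1 hi)
      exact ⟨η, fun _ => h⟩
    · exact ⟨0, fun h => (hi h).elim⟩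
  choose b hb using hex
  refine locTriv_at_of_glue hBv hm H 𝔫 R hmR g w hw hg b (fun i hi => (hb i hi).1)
    (fun i j hi hj => ?_) (fun i hi => ?_)
  · have : b i - b j = (b i - c) - (b j - c) := by ring
    rw [this]
    exact (maximalIdeal R).sub_mem (hb i hi).2 (hb j hj).2
  · let P : {i // Through v 𝔫 i} → Ideal R :=
      fun j => vertIdeal (v j) R (algebraMap_subring_mem ((hthr j).1 j.2))
    have : (P ⟨i, hi⟩).IsPrime := vertIdeal_isPrime _ _ _
    have : IsPrincipalIdealRing (R ⧸ P ⟨i, hi⟩) :=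
      (hbr i ((hthr i).1 hi)).isPrincipalIdealRing ((hthr i).1 hi)
    obtain ⟨N, hN⟩ := prim_of_pid P ⟨i, hi⟩ (by
      rintro ⟨j, hj⟩ hji hle
      obtain ⟨r, hr, h1, h2⟩ := hinc i j ((hthr i).1 hi) ((hthr j).1 hj)
        (fun h => hji (Subtype.ext h.symm))
      exact h2 (hle (show (⟨r, hr⟩ : R) ∈ P ⟨j, hj⟩ from h1)))
    refine ⟨N, fun y hy => ?_⟩
    obtain ⟨p, hp, q, hq, e⟩ := hN y hy
    exact ⟨p, q, hp, fun j hj hji => hq ⟨j, hj⟩ (fun h => hji (congrArg Subtype.val h)), e⟩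

end Fermat.Agent.BAD.Inj
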