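import Mathlib
import Fermat.Agent.BAD.Inj.LocalSub

/-!
# Local triviality: variant with "the local ring of every branch is a principal ideal ring" (BAD)
-/

namespace Fermat.Agent.BAD.Inj

open IsLocalRing

variable {F : Type*} [Field F] {ι : Type*}

/-- if the maximal ideal of `R` is generated by `t` modulo the centre `P` of `W`, then `R ⧸ P` is a
principal ideal ring (`R` noetherian local). -/
theorem isPrincipalIdealRing_quotient_of_gen {W : ValuationSubring F} {R : Subring F}
    [IsLocalRing R] [IsNoetherianRing R] (hRW : R ≤ W.toSubring) (t : R)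
    (ht : t ∈ maximalIdeal R)
    (hgen : ∀ y ∈ maximalIdeal R, ∃ r : R, ((y - r * t : R) : F) ∈ W.nonunits) :
    IsPrincipalIdealRing (R ⧸ vertIdeal W R (algebraMap_subring_mem hRW)) := by
  set P := vertIdeal W R (algebraMap_subring_mem hRW) with hP
  set mk := Ideal.Quotient.mk P with hmk
  have hsurj : Function.Surjective mk := Ideal.Quotient.mk_surjective
  have : IsLocalRing (R ⧸ P) := IsLocalRing.of_surjective' mk hsurj
  have hl : IsLocalHom mk := IsLocalHom.of_surjective mk hsurj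
  have hmax : maximalIdeal (R ⧸ P) = Ideal.span {mk t} := by
    apply le_antisymm
    · intro ybar hy
      obtain ⟨y, rfl⟩ := hsurj ybar
      have hyR : y ∈ maximalIdeal R := by
        rw [mem_maximalIdeal, mem_nonunits_iff] at hy ⊢
        exact fun hu => hy (hu.map mk)
      obtain ⟨r, hr⟩ := hgen y hyR
      have h1 : y - r * t ∈ P := hr
      have h2 : mk y = mk r * mk t := by
        rw [← map_mul, hmk, Ideal.Quotient.eq]; exact h1
      rw [h2]
      exact Ideal.mul_mem_left _ _ (Ideal.mem_span_singleton_self _)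
    · rw [Ideal.span_le, Set.singleton_subset_iff, SetLike.mem_coe, mem_maximalIdeal,
        mem_nonunits_iff]
      intro hu
      exact ((mem_maximalIdeal _).1 ht) (hl.map_nonunit t hu)
  have hprin : (maximalIdeal (R ⧸ P)).IsPrincipal := ⟨⟨_, hmax⟩⟩
  exact ((tfae_of_isNoetherianRing_of_isLocalRing_of_isDomain (R ⧸ P)).out 4 0).1 hprin

/-- **Trivial gluing data imply local triviality**, local subring form, principal branches. -/
theorem locTriv_at_of_pir [Finite ι] {v : ι → ValuationSubring F} {B : Subring F}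
    (hBv : ∀ b ∈ B, ∀ i, b ∈ v i) {m : ℕ} (hm : 0 < m) {lam : ι → F} {u : F}
    (H : ResRoot v lam m u) (𝔫 : Ideal B) [𝔫.IsPrime] (R : Subring F) [IsLocalRing R]
    (hR : IsLocAt B 𝔫 R) (hmR : IsUnit (m : R))
    (hpir : ∀ i (h : R ≤ (v i).toSubring),
      IsPrincipalIdealRing (R ⧸ vertIdeal (v i) R (algebraMap_subring_mem h)))
    (hinc : ∀ i j, R ≤ (v i).toSubring → R ≤ (v j).toSubring → i ≠ j →
      ∃ r ∈ R, r ∈ (v j).nonunits ∧ r ∉ (v i).nonunits)
    (g : F) (w : R) (hw : IsUnit w) (hg : g ^ m * u = w) (c : R)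
    (hval : ∀ i, R ≤ (v i).toSubring →
      ∃ η : R, g - lam i * (η : F) ∈ (v i).nonunits ∧ η - c ∈ maximalIdeal R) :
    ∃ c : F, c ^ m * u ∈ B ∧ ∃ b : B, b ∉ 𝔫 ∧ ∀ i, c - lam i * b ∈ (v i).nonunits := by
  classical
  let _ : Algebra B R := (Subring.inclusion hR.le).toAlgebra
  have : IsLocalization.AtPrime R 𝔫 := hR.isLocalization
  have : IsScalarTower B R F := IsScalarTower.of_algebraMap_eq (fun _ => rfl)
  have hthr : ∀ i, Through v 𝔫 i ↔ R ≤ (v i).toSubring := fun i => hR.through_iff hBv i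
  have hex : ∀ i, ∃ η : R, Through v 𝔫 i →
      (g - lam i * (η : F) ∈ (v i).nonunits ∧ η - c ∈ maximalIdeal R) := by
    intro i
    by_cases hi : Through v 𝔫 i
    · obtain ⟨η, h⟩ := hval i ((hthr i).1 hi)
      exact ⟨η, fun _ => h⟩
    · exact ⟨0, fun h => (hi h).elim⟩
  choose b hb using hex
  refine locTriv_at_of_glue hBv hm H 𝔫 R hmR g w hw hg b (fun i hi => (hb i hi).1)
    (fun i j hi hj => ?_) (fun i hi => ?_)
  · have : b i - b j = (b i - c) - (b j - c) := by ring
    rw [this]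
    exact (maximalIdeal R).sub_mem (hb i hi).2 (hb j hj).2
  · let P : {i // Through v 𝔫 i} → Ideal R :=
      fun j => vertIdeal (v j) R (algebraMap_subring_mem ((hthr j).1 j.2))
    have : (P ⟨i, hi⟩).IsPrime := vertIdeal_isPrime _ _ _
    have : IsPrincipalIdealRing (R ⧸ P ⟨i, hi⟩) := hpir i ((hthr i).1 hi)
    obtain ⟨N, hN⟩ := prim_of_pid P ⟨i, hi⟩ (by
      rintro ⟨j, hj⟩ hji hle
      obtain ⟨r, hr, h1, h2⟩ := hinc i j ((hthr i).1 hi) ((hthr j).1 hj)
        (fun h => hji (Subtype.ext h.symm))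
      exact h2 (hle (show (⟨r, hr⟩ : R) ∈ P ⟨j, hj⟩ from h1)))
    refine ⟨N, fun y hy => ?_⟩
    obtain ⟨p, hp, q, hq, e⟩ := hN y hy
    exact ⟨p, q, hp, fun j hj hji => hq ⟨j, hj⟩ (fun h => hji (congrArg Subtype.val h)), e⟩

end Fermat.Agent.BAD.Inj
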